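import Mathlib

/-!
# S26 / AMPLE / A4 (helper277): graded Noether normalisation by linear combinations

`K` an infinite field, `L` a field extension, `w : Fin n → L` not all zero.  Then there are
`g` and `K`-linear combinations `u_0, …, u_g` of the `w_i` (`u = lin a w`) such that
* `u` satisfies no nonzero homogeneous polynomial relation over `K` (`HomIndep`), hence
  `u_0 ≠ 0` and the affine coordinates `u_i / u_0` are algebraically independent over `K`;
* every `w_i` is homogeneously integral over `K[u]` (`HomIntegral`):
  `w_i^m + c_1(u) w_i^(m-1) + ⋯ + c_m(u) = 0`, `c_j` homogeneous of degree `j`;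
* every `w_i / u_0` is integral over `K[u_1/u_0, …, u_g/u_0]`.
Main statements: `graded_noether_ratios`, `graded_noether`, `graded_noether_rees`,
`linear_noether` (Noether normalisation by linear combinations in any `K`-algebra),
`exists_isUnit_of_homIntegral` (base point free criterion at a local ring).

Sections: 1. top coefficient of a linear substitution; 2. linear Noether normalisation;
3. Rees trick; 4. consequences.
-/

set_option autoImplicit false

namespace Fermat.Agent.S26.H277

open Polynomial

/-! ## Part 1: top coefficient of a linear substitution -/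

section TopCoeff

variable {S : Type*} [CommRing S]

/-- `Q` has degree at most `D` and coefficient `a` at `D`. -/
def TopCoeff (Q : S[X]) (D : ℕ) (a : S) : Prop := Q.natDegree ≤ D ∧ Q.coeff D = a

theorem TopCoeff.C (s : S) : TopCoeff (Polynomial.C s) 0 s := ⟨by simp, by simp⟩

theorem TopCoeff.one : TopCoeff (1 : S[X]) 0 1 := ⟨by simp, by simp⟩

theorem TopCoeff.X : TopCoeff (Polynomial.X : S[X]) 1 1 := ⟨natDegree_X_le, by simp⟩

theorem TopCoeff.mul {Q Q' : S[X]} {D D' : ℕ} {a a' : S} (h : TopCoeff Q D a) (h' : TopCoeff Q' D' a') :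
    TopCoeff (Q * Q') (D + D') (a * a') :=
  ⟨natDegree_mul_le.trans (add_le_add h.1 h'.1), by
    rw [coeff_mul_add_eq_of_natDegree_le h.1 h'.1, h.2, h'.2]⟩

theorem TopCoeff.add {Q Q' : S[X]} {D : ℕ} {a a' : S} (h : TopCoeff Q D a) (h' : TopCoeff Q' D a') :
    TopCoeff (Q + Q') D (a + a') :=
  ⟨(natDegree_add_le _ _).trans (max_le h.1 h'.1), by rw [coeff_add, h.2, h'.2]⟩

theorem TopCoeff.zero (D : ℕ) : TopCoeff (0 : S[X]) D 0 := ⟨by simp, by simp⟩

theorem TopCoeff.of_lt {Q : S[X]} {D D' : ℕ} {a : S} (h : TopCoeff Q D a) (hlt : D < D') : TopCoeff Q D' 0 :=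
  ⟨h.1.trans hlt.le, coeff_eq_zero_of_natDegree_lt (lt_of_le_of_lt h.1 hlt)⟩

theorem TopCoeff.pow {Q : S[X]} {D : ℕ} {a : S} (h : TopCoeff Q D a) (e : ℕ) :
    TopCoeff (Q ^ e) (e * D) (a ^ e) := by
  induction e with
  | zero => simpa using TopCoeff.one
  | succ e ih =>
    have := ih.mul h
    rw [pow_succ, pow_succ, Nat.succ_mul]
    exact this

theorem TopCoeff.prod {ι : Type*} (s : Finset ι) (Q : ι → S[X]) (D : ι → ℕ) (a : ι → S)
    (h : ∀ i ∈ s, TopCoeff (Q i) (D i) (a i)) :
    TopCoeff (∏ i ∈ s, Q i) (∑ i ∈ s, D i) (∏ i ∈ s, a i) := by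
  classical
  induction s using Finset.induction_on with
  | empty => simpa using TopCoeff.one
  | insert i s hi ih =>
    rw [Finset.prod_insert hi, Finset.sum_insert hi, Finset.prod_insert hi]
    exact (h i (Finset.mem_insert_self i s)).mul
      (ih fun j hj => h j (Finset.mem_insert_of_mem hj))

theorem TopCoeff.sum {ι : Type*} (s : Finset ι) (Q : ι → S[X]) (D : ℕ) (a : ι → S)
    (h : ∀ i ∈ s, TopCoeff (Q i) D (a i)) :
    TopCoeff (∑ i ∈ s, Q i) D (∑ i ∈ s, a i) := by
  classical
  induction s using Finset.induction_on with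
  | empty => simpa using TopCoeff.zero D
  | insert i s hi ih =>
    rw [Finset.sum_insert hi, Finset.sum_insert hi]
    exact (h i (Finset.mem_insert_self i s)).add
      (ih fun j hj => h j (Finset.mem_insert_of_mem hj))

end TopCoeff

section Subst

variable {K : Type*} [Field K] {S : Type*} [CommRing S] [Algebra K S] {n : ℕ}

/-- The generators of the substitution `W_i ↦ s_i + μ_i T` (`i < n`), `W_n ↦ T`. -/
noncomputable def substGen (s : Fin n → S) (μ : Fin n → K) : Fin (n + 1) → S[X] :=
  Fin.snoc (fun i => Polynomial.C (s i) + Polynomial.C (algebraMap K S (μ i)) * Polynomial.X)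
    Polynomial.X

/-- The substitution `W_i ↦ s_i + μ_i T` (`i < n`), `W_n ↦ T` as a `K`-algebra map. -/
noncomputable def substHom (s : Fin n → S) (μ : Fin n → K) :
    MvPolynomial (Fin (n + 1)) K →ₐ[K] S[X] :=
  MvPolynomial.aeval (substGen s μ)

/-- The point `(μ, 1)`. -/
def pt (μ : Fin n → K) : Fin (n + 1) → K := Fin.snoc μ 1

theorem substGen_top (s : Fin n → S) (μ : Fin n → K) (i : Fin (n + 1)) :
    TopCoeff (substGen s μ i) 1 (algebraMap K S (pt μ i)) := by
  refine Fin.lastCases ?_ (fun j => ?_) i
  · simp only [substGen, pt, Fin.snoc_last, map_one]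
    exact TopCoeff.X
  · simp only [substGen, pt, Fin.snoc_castSucc]
    constructor
    · refine (natDegree_add_le _ _).trans (max_le (by simp) ?_)
      exact (natDegree_C_mul_le _ _).trans natDegree_X_le
    · simp

theorem substHom_monomial_top (s : Fin n → S) (μ : Fin n → K) (e : Fin (n + 1) →₀ ℕ) (c : K) :
    TopCoeff (substHom s μ (MvPolynomial.monomial e c)) (e.degree)
      (algebraMap K S (MvPolynomial.eval (pt μ) (MvPolynomial.monomial e c))) := by
  have h1 : substHom s μ (MvPolynomial.monomial e c) =
      Polynomial.C (algebraMap K S c) * ∏ i : Fin (n + 1), substGen s μ i ^ e i := by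
    rw [substHom, MvPolynomial.aeval_monomial, Finsupp.prod_fintype _ _ (fun i => pow_zero _)]
    rfl
  have h2 : algebraMap K S (MvPolynomial.eval (pt μ) (MvPolynomial.monomial e c)) =
      algebraMap K S c * ∏ i : Fin (n + 1), algebraMap K S (pt μ i) ^ e i := by
    rw [MvPolynomial.eval_monomial, Finsupp.prod_fintype _ _ (fun i => pow_zero _), map_mul,
      map_prod]
    simp
  have h3 : e.degree = 0 + ∑ i : Fin (n + 1), e i * 1 := by
    simp [Finsupp.degree_eq_sum]
  rw [h1, h2, h3]
  refine (TopCoeff.C _).mul (TopCoeff.prod _ _ _ _ fun i _ => ?_)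
  exact (substGen_top s μ i).pow (e i)

/-- **TopCoeff coefficient of the substitution.**  If `p` has total degree `≤ D` then the image of
`p` has degree `≤ D` and its coefficient at `D` is `p_D(μ, 1)`. -/
theorem substHom_top (s : Fin n → S) (μ : Fin n → K) (p : MvPolynomial (Fin (n + 1)) K) (D : ℕ)
    (hD : p.totalDegree ≤ D) :
    TopCoeff (substHom s μ p) D
      (algebraMap K S (MvPolynomial.eval (pt μ) (MvPolynomial.homogeneousComponent D p))) := by
  classical
  have hp : p = ∑ e ∈ p.support, MvPolynomial.monomial e (p.coeff e) :=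
    (MvPolynomial.support_sum_monomial_coeff p).symm
  have hhc : MvPolynomial.homogeneousComponent D p =
      ∑ e ∈ p.support, if e.degree = D then MvPolynomial.monomial e (p.coeff e) else 0 := by
    rw [MvPolynomial.homogeneousComponent_apply, Finset.sum_filter]
  rw [hhc, map_sum, map_sum]
  have key : TopCoeff (∑ e ∈ p.support, substHom s μ (MvPolynomial.monomial e (p.coeff e))) D
      (∑ e ∈ p.support, algebraMap K S (MvPolynomial.eval (pt μ)
        (if e.degree = D then MvPolynomial.monomial e (p.coeff e) else 0))) := by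
    refine TopCoeff.sum _ _ _ _ fun e he => ?_
    have hle : e.degree ≤ D := by
      refine le_trans ?_ hD
      have := MvPolynomial.le_totalDegree he
      simpa [Finsupp.degree, Finsupp.sum] using this
    have ht := substHom_monomial_top s μ e (p.coeff e)
    rcases hle.eq_or_lt with h | h
    · rw [if_pos h]
      rw [h] at ht
      exact ht
    · rw [if_neg h.ne]
      simpa using ht.of_lt h
  rw [← map_sum, ← hp] at key
  exact key

end Subst

/-! ## Part 2: Noether normalisation by linear combinations -/

section PartLinear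

variable {K : Type*} [Field K]

/-- Value of a homogeneous polynomial at a rescaled point. -/
theorem eval_mul_of_isHomogeneous {σ : Type*} [Fintype σ] {d : ℕ} {p : MvPolynomial σ K}
    (hp : p.IsHomogeneous d) (c : K) (x : σ → K) :
    MvPolynomial.eval (fun i => c * x i) p = c ^ d * MvPolynomial.eval x p := by
  rw [MvPolynomial.eval_eq', MvPolynomial.eval_eq', Finset.mul_sum]
  refine Finset.sum_congr rfl fun e he => ?_
  have hdeg : ∑ i, e i = d := by
    have := hp (MvPolynomial.mem_support_iff.mp he)
    simpa [Finsupp.weight_apply, Finsupp.sum_fintype] using this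
  simp_rw [mul_pow, Finset.prod_mul_distrib, Finset.prod_pow_eq_pow_sum, hdeg]
  ring

/-- A nonzero homogeneous polynomial over an infinite field does not vanish at some point whose
last coordinate is `1`. -/
theorem exists_pt_eval_ne_zero [Infinite K] {n d : ℕ} (p : MvPolynomial (Fin (n + 1)) K)
    (hp : p.IsHomogeneous d) (hp0 : p ≠ 0) :
    ∃ μ : Fin n → K, MvPolynomial.eval (pt μ) p ≠ 0 := by
  have hq : p * MvPolynomial.X (Fin.last n) ≠ 0 := mul_ne_zero hp0 (MvPolynomial.X_ne_zero _)
  obtain ⟨x, hx⟩ : ∃ x : Fin (n + 1) → K,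
      MvPolynomial.eval x (p * MvPolynomial.X (Fin.last n)) ≠ 0 := by
    by_contra h
    push Not at h
    exact hq (MvPolynomial.funext fun x => by simpa using h x)
  rw [map_mul, MvPolynomial.eval_X] at hx
  have hx1 : MvPolynomial.eval x p ≠ 0 := left_ne_zero_of_mul hx
  have hx2 : x (Fin.last n) ≠ 0 := right_ne_zero_of_mul hx
  refine ⟨fun i => (x (Fin.last n))⁻¹ * x (Fin.castSucc i), ?_⟩
  have hpt : pt (fun i => (x (Fin.last n))⁻¹ * x (Fin.castSucc i)) =
      fun i => (x (Fin.last n))⁻¹ * x i := by
    funext i
    refine Fin.lastCases ?_ (fun j => ?_) i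
    · simp [pt, hx2]
    · simp [pt]
  rw [hpt, eval_mul_of_isHomogeneous hp]
  exact mul_ne_zero (pow_ne_zero _ (inv_ne_zero hx2)) hx1

/-- The top homogeneous component of a nonzero polynomial is nonzero. -/
theorem homogeneousComponent_totalDegree_ne_zero' {σ : Type*} {p : MvPolynomial σ K}
    (hp : p ≠ 0) : MvPolynomial.homogeneousComponent p.totalDegree p ≠ 0 := by
  classical
  have hne : p.support.Nonempty := by
    rwa [Finset.nonempty_iff_ne_empty, Ne, MvPolynomial.support_eq_empty]
  obtain ⟨e, he, hsup⟩ := Finset.exists_mem_eq_sup p.support hne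
    (fun s : σ →₀ ℕ => s.sum fun _ e => e)
  intro h0
  have hc := congrArg (MvPolynomial.coeff e) h0
  rw [MvPolynomial.coeff_homogeneousComponent, MvPolynomial.coeff_zero] at hc
  have hdeg : e.degree = p.totalDegree := by
    rw [MvPolynomial.totalDegree, hsup]
    simp [Finsupp.degree, Finsupp.sum]
  rw [if_pos hdeg] at hc
  exact (MvPolynomial.mem_support_iff.mp he) hc

section Algebra

variable {R : Type*} [CommRing R] [Algebra K R]

/-- `K`-linear combinations of a family with a matrix of coefficients. -/
def lin {k n : ℕ} (a : Fin k → Fin n → K) (v : Fin n → R) : Fin k → R :=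
  fun j => ∑ i, a j i • v i

/-- Transitivity of integrality for subalgebras of a fixed algebra. -/
theorem isIntegral_of_subalgebra_le {B A' : Subalgebra K R}
    (h : ∀ a ∈ A', IsIntegral B a) {x : R} (hx : IsIntegral A' x) : IsIntegral B x := by
  let C : Subalgebra B R := integralClosure B R
  let φ : A' →+* C :=
    { toFun := fun a => ⟨a.1, h a.1 a.2⟩
      map_one' := rfl
      map_mul' := fun _ _ => rfl
      map_zero' := rfl
      map_add' := fun _ _ => rfl }
  have hC : IsIntegral C x := by
    have := IsIntegral.map_of_comp_eq (R := A') (S := R) (T := C) (U := R) φ (RingHom.id R)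
      (by ext a; rfl) hx
    simpa using this
  exact isIntegral_trans (R := B) (A := C) x hC

/-- Every element of `K[S]` is integral over `B` if the elements of `S` are. -/
theorem isIntegral_of_mem_adjoin {B : Subalgebra K R} {S : Set R}
    (h : ∀ s ∈ S, IsIntegral B s) : ∀ a ∈ Algebra.adjoin K S, IsIntegral B a := by
  intro a ha
  have hle : Algebra.adjoin K S ≤ (integralClosure B R).restrictScalars K :=
    Algebra.adjoin_le fun s hs => h s hs
  exact hle ha

/-- The key step: if `p(v) = 0` and the top component of `p` does not vanish at `(μ, 1)`, then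
`v_n` is integral over `K[v_i - μ_i v_n]`. -/
theorem isIntegral_last_of_relation {n : ℕ} (v : Fin (n + 1) → R)
    (p : MvPolynomial (Fin (n + 1)) K) (hpv : MvPolynomial.aeval v p = 0) (μ : Fin n → K)
    (hμ : MvPolynomial.eval (pt μ) (MvPolynomial.homogeneousComponent p.totalDegree p) ≠ 0) :
    IsIntegral (Algebra.adjoin K
      (Set.range fun i : Fin n => v (Fin.castSucc i) - μ i • v (Fin.last n)))
      (v (Fin.last n)) := by
  set v' : Fin n → R := fun i => v (Fin.castSucc i) - μ i • v (Fin.last n) with hv'
  set A' := Algebra.adjoin K (Set.range v') with hA'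
  let s : Fin n → A' := fun i => ⟨v' i, Algebra.subset_adjoin ⟨i, rfl⟩⟩
  set c : K := MvPolynomial.eval (pt μ) (MvPolynomial.homogeneousComponent p.totalDegree p)
    with hc
  have htop := substHom_top s μ p p.totalDegree le_rfl
  -- evaluation at `v_n`
  have hcomp : ((Polynomial.aeval (R := A') (v (Fin.last n))).restrictScalars K).comp
      (substHom s μ) = MvPolynomial.aeval v := by
    refine MvPolynomial.algHom_ext fun i => ?_
    simp only [AlgHom.coe_comp, AlgHom.coe_restrictScalars', Function.comp_apply, substHom,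
      MvPolynomial.aeval_X]
    refine Fin.lastCases ?_ (fun j => ?_) i
    · simp [substGen]
    · simp only [substGen, Fin.snoc_castSucc, map_add, Polynomial.aeval_C, map_mul,
        Polynomial.aeval_X]
      have h1 : algebraMap (↥A') R (s j) = v' j := rfl
      have h2 : algebraMap (↥A') R (algebraMap K (↥A') (μ j)) = algebraMap K R (μ j) :=
        (IsScalarTower.algebraMap_apply K A' R (μ j)).symm
      rw [h1, h2, hv', ← Algebra.smul_def]
      ring
  have hQ : Polynomial.aeval (v (Fin.last n)) (substHom s μ p) = 0 := by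
    have := congrArg (fun f => f p) hcomp
    simpa [hpv] using this
  -- normalise
  set Q1 : A'[X] := Polynomial.C (algebraMap K A' c⁻¹) * substHom s μ p with hQ1
  have htop1 : TopCoeff Q1 (0 + p.totalDegree) (algebraMap K A' c⁻¹ * algebraMap K A' c) :=
    (TopCoeff.C _).mul htop
  have hmonic : Q1.Monic := by
    refine Polynomial.monic_of_natDegree_le_of_coeff_eq_one p.totalDegree ?_ ?_
    · simpa using htop1.1
    · have := htop1.2
      rw [zero_add] at this
      rw [this, ← map_mul, inv_mul_cancel₀ hμ, map_one]
  refine ⟨Q1, hmonic, ?_⟩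
  rw [← Polynomial.aeval_def, hQ1, map_mul, hQ, mul_zero]

/-- **Linear Noether normalisation** over an infinite field. -/
theorem linear_noether [Infinite K] [Nontrivial R] :
    ∀ (n : ℕ) (v : Fin n → R), ∃ (k : ℕ) (a : Fin k → Fin n → K),
      AlgebraicIndependent K (lin a v) ∧
        ∀ i, IsIntegral (Algebra.adjoin K (Set.range (lin a v))) (v i) := by
  intro n
  induction n with
  | zero =>
    intro v
    exact ⟨0, fun j => j.elim0, algebraicIndependent_empty_type, fun i => i.elim0⟩
  | succ n ih =>
    intro v
    by_cases hv : AlgebraicIndependent K v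
    · refine ⟨n + 1, fun j i => if j = i then 1 else 0, ?_, ?_⟩
      · have : lin (fun j i : Fin (n + 1) => if j = i then (1 : K) else 0) v = v := by
          funext j
          simp [lin]
        rwa [this]
      · intro i
        have : lin (fun j i : Fin (n + 1) => if j = i then (1 : K) else 0) v = v := by
          funext j
          simp [lin]
        rw [this]
        have hmem : v i ∈ Algebra.adjoin K (Set.range v) := Algebra.subset_adjoin ⟨i, rfl⟩
        exact isIntegral_algebraMap (R := Algebra.adjoin K (Set.range v)) (x := ⟨v i, hmem⟩)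
    · rw [algebraicIndependent_iff] at hv
      push Not at hv
      obtain ⟨p, hpv, hp0⟩ := hv
      obtain ⟨μ, hμ⟩ := exists_pt_eval_ne_zero
        (MvPolynomial.homogeneousComponent p.totalDegree p)
        (MvPolynomial.homogeneousComponent_isHomogeneous _ _)
        (homogeneousComponent_totalDegree_ne_zero' hp0)
      have hlast := isIntegral_last_of_relation v p hpv μ hμ
      set v' : Fin n → R := fun i => v (Fin.castSucc i) - μ i • v (Fin.last n) with hv'
      obtain ⟨k, a', hind, hint⟩ := ih v'
      let a : Fin k → Fin (n + 1) → K :=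
        fun j => Fin.snoc (a' j) (-∑ i, a' j i * μ i)
      have hlin : lin a v = lin a' v' := by
        funext j
        simp only [lin, a, Fin.sum_univ_castSucc, Fin.snoc_castSucc, Fin.snoc_last, hv',
          smul_sub, Finset.sum_sub_distrib, neg_smul, Finset.sum_smul, mul_smul]
        ring
      refine ⟨k, a, by rwa [hlin], ?_⟩
      rw [hlin]
      set B := Algebra.adjoin K (Set.range (lin a' v')) with hB
      have hA' : ∀ x ∈ Algebra.adjoin K (Set.range v'), IsIntegral B x :=
        isIntegral_of_mem_adjoin (by rintro _ ⟨i, rfl⟩; exact hint i)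
      have hl : IsIntegral B (v (Fin.last n)) := isIntegral_of_subalgebra_le hA' hlast
      intro i
      refine Fin.lastCases hl (fun j => ?_) i
      have : v (Fin.castSucc j) = v' j + μ j • v (Fin.last n) := by
        simp [hv']
      rw [this]
      exact (hint j).add (IsIntegral.smul (μ j) hl)

end Algebra

end PartLinear

/-! ## Part 3: Rees trick, homogeneous integrality -/

section PartGraded

variable (K : Type*) [Field K] {L : Type*} [Field L] [Algebra K L]

/-- `z` is homogeneously integral over `K[u]`:
`z^m + c_1(u) z^(m-1) + ⋯ + c_m(u) = 0` with `c_j` homogeneous of degree `j`. -/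
def HomIntegral {k : ℕ} (u : Fin k → L) (z : L) : Prop :=
  ∃ m : ℕ, 0 < m ∧ ∃ c : ℕ → MvPolynomial (Fin k) K, (∀ j, (c j).IsHomogeneous j) ∧ c 0 = 1 ∧
    ∑ j ∈ Finset.range (m + 1), MvPolynomial.aeval u (c j) * z ^ (m - j) = 0

/-- The family `u` satisfies no nonzero homogeneous polynomial relation over `K`. -/
def HomIndep {k : ℕ} (u : Fin k → L) : Prop :=
  ∀ (d : ℕ) (p : MvPolynomial (Fin k) K), p.IsHomogeneous d →
    MvPolynomial.aeval u p = 0 → p = 0

variable {K}

/-- The Rees lift `u_j T` of a family. -/
noncomputable def rees {k : ℕ} (u : Fin k → L) : Fin k → L[X] :=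
  fun j => Polynomial.C (u j) * Polynomial.X

theorem lin_rees {k n : ℕ} (a : Fin k → Fin n → K) (w : Fin n → L) :
    lin a (rees w) = rees (lin a w) := by
  funext j
  simp only [lin, rees, map_sum, Finset.sum_mul]
  refine Finset.sum_congr rfl fun i _ => ?_
  rw [Algebra.smul_def, Algebra.smul_def, map_mul, mul_assoc]
  rfl

theorem aeval_rees_monomial {k : ℕ} (u : Fin k → L) (s : Fin k →₀ ℕ) (c : K) :
    MvPolynomial.aeval (rees u) (MvPolynomial.monomial s c) =
      Polynomial.C (MvPolynomial.aeval u (MvPolynomial.monomial s c)) *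
        Polynomial.X ^ s.degree := by
  rw [MvPolynomial.aeval_monomial, MvPolynomial.aeval_monomial,
    Finsupp.prod_fintype _ _ (fun i => pow_zero _),
    Finsupp.prod_fintype _ _ (fun i => pow_zero _), Finsupp.degree_eq_sum]
  simp only [rees, mul_pow, Finset.prod_mul_distrib, Finset.prod_pow_eq_pow_sum, map_mul,
    map_prod, map_pow]
  rw [mul_assoc]
  rfl

/-- The coefficients of `q(u_1 T, …, u_k T)` are the values at `u` of the homogeneous
components of `q`. -/
theorem coeff_aeval_rees {k : ℕ} (u : Fin k → L) (q : MvPolynomial (Fin k) K) (e : ℕ) :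
    (MvPolynomial.aeval (rees u) q).coeff e =
      MvPolynomial.aeval u (MvPolynomial.homogeneousComponent e q) := by
  induction q using MvPolynomial.induction_on' with
  | monomial s c =>
    rw [aeval_rees_monomial, Polynomial.coeff_C_mul_X_pow,
      MvPolynomial.homogeneousComponent_of_mem
        (MvPolynomial.isHomogeneous_monomial (n := s.degree) c rfl)]
    split_ifs <;> simp
  | add p q hp hq => simp [hp, hq]

theorem aeval_rees_of_isHomogeneous {k : ℕ} (u : Fin k → L) {q : MvPolynomial (Fin k) K} {d : ℕ}
    (hq : q.IsHomogeneous d) :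
    MvPolynomial.aeval (rees u) q = Polynomial.C (MvPolynomial.aeval u q) * Polynomial.X ^ d := by
  ext e
  rw [coeff_aeval_rees, Polynomial.coeff_C_mul_X_pow,
    MvPolynomial.homogeneousComponent_of_mem hq]
  split_ifs <;> simp

theorem homIndep_of_algebraicIndependent {k : ℕ} (u : Fin k → L)
    (h : AlgebraicIndependent K (rees u)) : HomIndep K u := by
  intro d p hp hpu
  rw [algebraicIndependent_iff] at h
  refine h p ?_
  rw [aeval_rees_of_isHomogeneous u hp, hpu, map_zero, zero_mul]

theorem homIntegral_of_isIntegral {k : ℕ} (u : Fin k → L) (z : L)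
    (h : IsIntegral (Algebra.adjoin K (Set.range (rees u))) (Polynomial.C z * Polynomial.X)) :
    HomIntegral K u z := by
  classical
  set B := Algebra.adjoin K (Set.range (rees u)) with hB
  obtain ⟨Q, hQm, hQ⟩ := h
  have hrange : ∀ b : B, ∃ q : MvPolynomial (Fin k) K, MvPolynomial.aeval (rees u) q = (b : L[X]) := by
    intro b
    have hb : (b : L[X]) ∈ Algebra.adjoin K (Set.range (rees u)) := b.2
    rw [Algebra.adjoin_range_eq_range_aeval] at hb
    exact hb
  choose q0 hq0 using hrange
  set m := Q.natDegree with hm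
  let q : ℕ → MvPolynomial (Fin k) K := fun i => if i = m then 1 else q0 (Q.coeff i)
  have hq : ∀ i, MvPolynomial.aeval (rees u) (q i) = ((Q.coeff i : B) : L[X]) := by
    intro i
    by_cases hi : i = m
    · simp only [q, if_pos hi, map_one]
      rw [hi, hm, ← Polynomial.leadingCoeff, hQm.leadingCoeff]
      rfl
    · simp only [q, if_neg hi]
      exact hq0 _
  have hmpos : 0 < m := by
    rcases Nat.eq_zero_or_pos m with h0 | h0
    · exfalso
      have hQ1 : Q = 1 := by
        have := Polynomial.eq_C_of_natDegree_eq_zero (h0 ▸ hm.symm : Q.natDegree = 0)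
        rw [this]
        have hc : Q.coeff 0 = 1 := by
          have := hQm.leadingCoeff
          rwa [Polynomial.leadingCoeff, ← hm, h0] at this
        rw [hc, map_one]
      rw [hQ1, Polynomial.eval₂_one] at hQ
      exact one_ne_zero hQ
    · exact h0
  refine ⟨m, hmpos, fun j => MvPolynomial.homogeneousComponent j (q (m - j)),
    fun j => MvPolynomial.homogeneousComponent_isHomogeneous _ _, ?_, ?_⟩
  · simp only [Nat.sub_zero, q, if_true]
    rw [MvPolynomial.homogeneousComponent_zero]
    simp
  · rw [Polynomial.eval₂_eq_sum_range] at hQ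
    have hcoef := congrArg (fun P : L[X] => P.coeff m) hQ
    simp only [Polynomial.finsetSum_coeff, Polynomial.coeff_zero] at hcoef
    rw [← Finset.sum_range_reflect]
    simp only [add_tsub_cancel_right]
    rw [← hcoef]
    refine Finset.sum_congr rfl fun i hi => ?_
    have hi' : i ≤ m := Nat.lt_succ_iff.mp (Finset.mem_range.mp hi)
    have h1 : m - (m - i) = i := Nat.sub_sub_self hi'
    have h2 : (algebraMap B L[X]) (Q.coeff i) = MvPolynomial.aeval (rees u) (q i) := (hq i).symm
    rw [h1, h2, mul_pow, ← map_pow, ← mul_assoc, mul_comm _ (Polynomial.C (z ^ i)), mul_assoc,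
      Polynomial.coeff_C_mul]
    have h3 : (MvPolynomial.aeval (rees u) (q i) * Polynomial.X ^ i).coeff m =
        (MvPolynomial.aeval (rees u) (q i)).coeff (m - i) := by
      conv_lhs => rw [← Nat.sub_add_cancel hi']
      exact Polynomial.coeff_mul_X_pow _ _ _
    rw [h3, coeff_aeval_rees, mul_comm]

/-- **Graded Noether normalisation** (homogeneous form). -/
theorem graded_noether [Infinite K] {n : ℕ} (w : Fin n → L) :
    ∃ (k : ℕ) (a : Fin k → Fin n → K),
      HomIndep K (lin a w) ∧ ∀ i, HomIntegral K (lin a w) (w i) := by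
  obtain ⟨k, a, hind, hint⟩ := linear_noether (K := K) (R := L[X]) n (rees w)
  refine ⟨k, a, ?_, fun i => ?_⟩
  · rw [lin_rees] at hind
    exact homIndep_of_algebraicIndependent _ hind
  · have := hint i
    rw [lin_rees] at this
    exact homIntegral_of_isIntegral _ _ this

end PartGraded

/-! ## Part 4: consequences (ratios, base point free criterion) -/

section PartRatio

variable {K : Type*} [Field K] {L : Type*} [Field L] [Algebra K L]

/-- Value of a homogeneous polynomial at a rescaled point (algebra version). -/
theorem aeval_mul_of_isHomogeneous {S : Type*} [CommRing S] [Algebra K S] {σ : Type*} [Fintype σ]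
    {d : ℕ} {p : MvPolynomial σ K} (hp : p.IsHomogeneous d) (t : S) (x : σ → S) :
    MvPolynomial.aeval (fun i => t * x i) p = t ^ d * MvPolynomial.aeval x p := by
  rw [MvPolynomial.aeval_def, MvPolynomial.aeval_def, MvPolynomial.eval₂_eq',
    MvPolynomial.eval₂_eq', Finset.mul_sum]
  refine Finset.sum_congr rfl fun e he => ?_
  have hdeg : ∑ i, e i = d := by
    have := hp (MvPolynomial.mem_support_iff.mp he)
    simpa [Finsupp.weight_apply, Finsupp.sum_fintype] using this
  simp_rw [mul_pow, Finset.prod_mul_distrib, Finset.prod_pow_eq_pow_sum, hdeg]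
  ring

theorem HomIndep.ne_zero {k : ℕ} {u : Fin k → L} (h : HomIndep K u) (j : Fin k) : u j ≠ 0 := by
  intro hj
  have := h 1 (MvPolynomial.X j) (MvPolynomial.isHomogeneous_X K j) (by simpa using hj)
  exact MvPolynomial.X_ne_zero j this

theorem degree_cons {g : ℕ} (a : ℕ) (s : Fin g →₀ ℕ) :
    (Finsupp.cons a s).degree = a + s.degree := by
  rw [Finsupp.degree_eq_sum, Finsupp.degree_eq_sum, Fin.sum_univ_succ]
  simp [Finsupp.cons_zero, Finsupp.cons_succ]

/-- The affine coordinates `u_i / u_0` of a homogeneously independent family are algebraically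
independent. -/
theorem HomIndep.algebraicIndependent_ratios {g : ℕ} {u : Fin (g + 1) → L} (h : HomIndep K u) :
    AlgebraicIndependent K (fun i : Fin g => u i.succ / u 0) := by
  classical
  have hu0 : u 0 ≠ 0 := h.ne_zero 0
  rw [algebraicIndependent_iff]
  intro r hr
  by_contra hr0
  set D := r.totalDegree with hD
  have hle : ∀ s ∈ r.support, s.degree ≤ D := by
    intro s hs
    have := MvPolynomial.le_totalDegree hs
    simpa [Finsupp.degree, Finsupp.sum] using this
  let P : MvPolynomial (Fin (g + 1)) K :=
    ∑ s ∈ r.support, MvPolynomial.monomial (Finsupp.cons (D - s.degree) s) (r.coeff s)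
  have hPhom : P.IsHomogeneous D := by
    refine MvPolynomial.IsHomogeneous.sum _ _ _ fun s hs => ?_
    refine MvPolynomial.isHomogeneous_monomial _ ?_
    rw [degree_cons]
    exact Nat.sub_add_cancel (hle s hs)
  have hPu : MvPolynomial.aeval u P =
      u 0 ^ D * MvPolynomial.aeval (fun i : Fin g => u i.succ / u 0) r := by
    conv_rhs => rw [← MvPolynomial.support_sum_monomial_coeff r]
    rw [map_sum, map_sum, Finset.mul_sum]
    refine Finset.sum_congr rfl fun s hs => ?_
    rw [MvPolynomial.aeval_monomial, MvPolynomial.aeval_monomial,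
      Finsupp.prod_fintype _ _ (fun i => pow_zero _),
      Finsupp.prod_fintype _ _ (fun i => pow_zero _), Fin.prod_univ_succ]
    simp only [Finsupp.cons_zero, Finsupp.cons_succ, div_pow, Finset.prod_div_distrib,
      Finset.prod_pow_eq_pow_sum]
    have h1 : ∑ i, s i = s.degree := (Finsupp.degree_eq_sum s).symm
    rw [h1, pow_sub₀ _ hu0 (hle s hs)]
    field_simp
  have hP0 : P = 0 := h D P hPhom (by rw [hPu, hr, mul_zero])
  have hne : r.support.Nonempty := by
    rwa [Finset.nonempty_iff_ne_empty, Ne, MvPolynomial.support_eq_empty]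
  obtain ⟨s0, hs0⟩ := hne
  have hcoef := congrArg (MvPolynomial.coeff (Finsupp.cons (D - s0.degree) s0)) hP0
  simp only [P, MvPolynomial.coeff_sum, MvPolynomial.coeff_monomial,
    MvPolynomial.coeff_zero] at hcoef
  rw [Finset.sum_eq_single s0] at hcoef
  · rw [if_pos rfl] at hcoef
    exact (MvPolynomial.mem_support_iff.mp hs0) hcoef
  · intro s _ hne'
    rw [if_neg]
    intro heq
    apply hne'
    have := congrArg Finsupp.tail heq
    simpa [Finsupp.tail_cons] using this
  · intro h'
    exact absurd hs0 h'

/-- Transport of integrality from the Rees algebra to the affine chart `u_0 ≠ 0`: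
`z / u_0` is integral over `K[u_1/u_0, …, u_g/u_0]`. -/
theorem isIntegral_div_of_rees {g : ℕ} (u : Fin (g + 1) → L) (hu0 : u 0 ≠ 0) (z : L)
    (h : IsIntegral (Algebra.adjoin K (Set.range (rees u))) (Polynomial.C z * Polynomial.X)) :
    IsIntegral (Algebra.adjoin K (Set.range fun i : Fin g => u i.succ / u 0)) (z / u 0) := by
  set A := Algebra.adjoin K (Set.range fun i : Fin g => u i.succ / u 0) with hA
  set B := Algebra.adjoin K (Set.range (rees u)) with hB
  let ev : L[X] →ₐ[K] L := (Polynomial.aeval (R := L) (u 0)⁻¹).restrictScalars K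
  have hev : ∀ b ∈ B, ev b ∈ A := by
    intro b hb
    have hmap : B.map ev ≤ A := by
      rw [hB, AlgHom.map_adjoin]
      refine Algebra.adjoin_le ?_
      rintro _ ⟨_, ⟨j, rfl⟩, rfl⟩
      refine Fin.cases ?_ (fun i => ?_) j
      · have : ev (rees u 0) = 1 := by
          simp [ev, rees, hu0]
        rw [this]
        exact one_mem _
      · have : ev (rees u i.succ) = u i.succ / u 0 := by
          simp [ev, rees, div_eq_mul_inv]
        rw [this]
        exact Algebra.subset_adjoin ⟨i, rfl⟩
    exact hmap ⟨b, hb, rfl⟩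
  let φ : B →+* A :=
    { toFun := fun b => ⟨ev b.1, hev b.1 b.2⟩
      map_one' := Subtype.ext (map_one ev)
      map_mul' := fun x y => Subtype.ext (map_mul ev x.1 y.1)
      map_zero' := Subtype.ext (map_zero ev)
      map_add' := fun x y => Subtype.ext (map_add ev x.1 y.1) }
  have := IsIntegral.map_of_comp_eq (R := B) (S := L[X]) (T := A) (U := L) φ ev.toRingHom
    (by ext b; rfl) h
  have hz : ev.toRingHom (Polynomial.C z * Polynomial.X) = z / u 0 := by
    simp [ev, div_eq_mul_inv]
  rwa [hz] at this

/-- Values of polynomials without constant term lie in the ideal generated by the point. -/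
theorem aeval_mem_span_of_isHomogeneous {O : Type*} [CommRing O] [Algebra K O] {k : ℕ}
    (r : Fin k → O) {c : MvPolynomial (Fin k) K} {j : ℕ} (hj : 0 < j) (hc : c.IsHomogeneous j) :
    MvPolynomial.aeval r c ∈ Ideal.span (Set.range r) := by
  classical
  rw [← MvPolynomial.support_sum_monomial_coeff c, map_sum]
  refine Ideal.sum_mem _ fun s hs => ?_
  have hdeg : s.degree = j := by
    have := hc (MvPolynomial.mem_support_iff.mp hs)
    simpa [Finsupp.weight_apply, Finsupp.degree, Finsupp.sum] using this
  have hs0 : s ≠ 0 := by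
    rintro rfl
    simp at hdeg
    omega
  obtain ⟨i, hi⟩ : ∃ i, s i ≠ 0 := by
    by_contra hcon
    push Not at hcon
    exact hs0 (Finsupp.ext hcon)
  rw [MvPolynomial.aeval_monomial, Finsupp.prod_fintype _ _ (fun i => pow_zero _)]
  refine Ideal.mul_mem_left _ _ ?_
  rw [← Finset.mul_prod_erase _ _ (Finset.mem_univ i)]
  refine Ideal.mul_mem_right _ _ ?_
  obtain ⟨e, he⟩ := Nat.exists_eq_succ_of_ne_zero hi
  rw [he, pow_succ]
  exact Ideal.mul_mem_left _ _ (Ideal.subset_span ⟨i, rfl⟩)

/-- **Base point free criterion.**  `O` a local ring inside `L` (e.g. the local ring of a point),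
`z ≠ 0` homogeneously integral over `K[u]`, and `u_j / z ∈ O` for all `j`
(e.g. `z` generates the fractional ideal spanned by a system containing the `u_j`).
Then some `u_j / z` is a unit of `O` (so `u_j` generates as well). -/
theorem exists_isUnit_of_homIntegral {O : Type*} [CommRing O] [IsLocalRing O] [Algebra K O]
    [Algebra O L] [IsScalarTower K O L] (hinj : Function.Injective (algebraMap O L)) {k : ℕ}
    (u : Fin k → L) (z : L) (hz : z ≠ 0) (h : HomIntegral K u z) (r : Fin k → O)
    (hr : ∀ j, algebraMap O L (r j) = u j / z) : ∃ j, IsUnit (r j) := by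
  classical
  by_contra hcon
  push Not at hcon
  obtain ⟨m, hm, c, hc, hc0, hrel⟩ := h
  -- the relation inside `O`
  have hu : u = fun j => z * algebraMap O L (r j) := by
    funext j
    rw [hr j]
    field_simp
  have hterm : ∀ j ∈ Finset.range (m + 1), MvPolynomial.aeval u (c j) * z ^ (m - j) =
      z ^ m * algebraMap O L (MvPolynomial.aeval r (c j)) := by
    intro j hj
    have hj' : j ≤ m := Nat.lt_succ_iff.mp (Finset.mem_range.mp hj)
    have h1 : MvPolynomial.aeval u (c j) =
        z ^ j * MvPolynomial.aeval (fun i => algebraMap O L (r i)) (c j) := by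
      rw [hu]
      exact aeval_mul_of_isHomogeneous (hc j) z _
    have h2 : MvPolynomial.aeval (fun i => algebraMap O L (r i)) (c j) =
        algebraMap O L (MvPolynomial.aeval r (c j)) := by
      have := MvPolynomial.aeval_algebraMap_apply (R := K) (A := O) (B := L) r (c j)
      exact this
    rw [h1, h2, mul_assoc, mul_comm _ (z ^ (m - j)), ← mul_assoc, ← pow_add,
      Nat.add_sub_cancel' hj']
  rw [Finset.sum_congr rfl hterm, ← Finset.mul_sum, ← map_sum] at hrel
  have hsum : ∑ j ∈ Finset.range (m + 1), MvPolynomial.aeval r (c j) = 0 := by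
    have := (mul_eq_zero.mp hrel).resolve_left (pow_ne_zero _ hz)
    exact hinj (by rw [this, map_zero])
  rw [Finset.sum_range_succ'] at hsum
  simp only [hc0, map_one] at hsum
  have hmem : ∑ j ∈ Finset.range m, MvPolynomial.aeval r (c (j + 1)) ∈
      IsLocalRing.maximalIdeal O := by
    refine Ideal.sum_mem _ fun j _ => ?_
    have h1 := aeval_mem_span_of_isHomogeneous (K := K) r (Nat.succ_pos j) (hc (j + 1))
    have h2 : Ideal.span (Set.range r) ≤ IsLocalRing.maximalIdeal O := by
      rw [Ideal.span_le]
      rintro _ ⟨i, rfl⟩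
      exact (IsLocalRing.mem_maximalIdeal _).mpr (hcon i)
    exact h2 h1
  have h1 : (1 : O) ∈ IsLocalRing.maximalIdeal O := by
    have : (1 : O) = -(∑ j ∈ Finset.range m, MvPolynomial.aeval r (c (j + 1))) := by
      rw [eq_neg_iff_add_eq_zero, add_comm]
      exact hsum
    rw [this]
    exact neg_mem hmem
  exact (IsLocalRing.maximalIdeal.isMaximal O).ne_top
    ((Ideal.eq_top_iff_one _).mpr h1)

/-- Master form of graded Noether normalisation (in the Rees algebra `L[T]`). -/
theorem graded_noether_rees [Infinite K] {n : ℕ} (w : Fin n → L) :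
    ∃ (k : ℕ) (a : Fin k → Fin n → K),
      AlgebraicIndependent K (rees (lin a w)) ∧
        ∀ i, IsIntegral (Algebra.adjoin K (Set.range (rees (lin a w))))
          (Polynomial.C (w i) * Polynomial.X) := by
  obtain ⟨k, a, hind, hint⟩ := linear_noether (K := K) (R := L[X]) n (rees w)
  rw [lin_rees] at hind hint
  exact ⟨k, a, hind, hint⟩

/-- **A4, packaged.**  `K` infinite, `w : Fin n → L` not all zero.  There are `g` and `g + 1`
`K`-linear combinations `u_0, …, u_g` of the `w_i` such that
* `u_0 ≠ 0` and `u_1/u_0, …, u_g/u_0` are algebraically independent over `K`;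
* `u` satisfies no homogeneous relation;
* every `w_i` is homogeneously integral over `K[u]`;
* every `w_i / u_0` is integral over `K[u_1/u_0, …, u_g/u_0]`. -/
theorem graded_noether_ratios [Infinite K] {n : ℕ} (w : Fin n → L) (hw : ∃ i, w i ≠ 0) :
    ∃ (g : ℕ) (a : Fin (g + 1) → Fin n → K),
      lin a w 0 ≠ 0 ∧
      AlgebraicIndependent K (fun i : Fin g => lin a w i.succ / lin a w 0) ∧
      HomIndep K (lin a w) ∧
      (∀ i, HomIntegral K (lin a w) (w i)) ∧
      ∀ i, IsIntegral (Algebra.adjoin K (Set.range fun i : Fin g => lin a w i.succ / lin a w 0))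
        (w i / lin a w 0) := by
  obtain ⟨k, a, hind, hint⟩ := graded_noether_rees (K := K) w
  have hI : HomIndep K (lin a w) := homIndep_of_algebraicIndependent _ hind
  have hH : ∀ i, HomIntegral K (lin a w) (w i) := fun i => homIntegral_of_isIntegral _ _ (hint i)
  obtain ⟨i0, hi0⟩ := hw
  have hk : k ≠ 0 := by
    rintro rfl
    obtain ⟨m, hm, c, hc, hc0, hrel⟩ := hH i0
    have hzero : ∀ j, 0 < j → c j = 0 := by
      intro j hj
      ext s
      have hs : s = 0 := Subsingleton.elim _ _
      subst hs
      by_contra hne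
      have := hc j hne
      simp at this
      omega
    rw [Finset.sum_range_succ'] at hrel
    rw [Finset.sum_eq_zero (fun j _ => by rw [hzero (j + 1) (Nat.succ_pos j), map_zero,
      zero_mul])] at hrel
    simp only [hc0, map_one, Nat.sub_zero, one_mul, zero_add] at hrel
    exact hi0 (pow_eq_zero_iff hm.ne' |>.mp hrel)
  obtain ⟨g, rfl⟩ := Nat.exists_eq_succ_of_ne_zero hk
  exact ⟨g, a, hI.ne_zero 0, hI.algebraicIndependent_ratios, hI, hH,
    fun i => isIntegral_div_of_rees _ (hI.ne_zero 0) _ (hint i)⟩

end PartRatio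

end Fermat.Agent.S26.H277
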